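import Mathlib.FieldTheory.Finite.Basic
import Fermat.Agent.ClassField.PrimeSum
import Fermat.Agent.ClassField.Analytic.LBound
import Fermat.Agent.Density.Analytic

/-!
# Primes avoiding the kernels of a cubic and a quadratic ray class character

The primes in the kernel of a ray class character of prime order `d` have density at most `1/d`, as
the L-series of the nontrivial powers stay bounded near `1`. Since `1/3 + 1/2 < 1`, infinitely many
primes of degree one lie outside the kernels of a cubic and a quadratic character.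
-/

set_option autoImplicit false

noncomputable section

open NumberField IsDedekindDomain Filter Topology
open scoped Classical

namespace Fermat.Agent.TwoAdic.PrimeClasses

variable {K : Type*} [Field K] [NumberField K]

/-- Nonzero and prime to `𝔪`. -/
def IsPrimeTo (𝔪 I : Ideal (𝓞 K)) : Prop := I ≠ ⊥ ∧ IsCoprime I 𝔪

variable {𝔪 : Ideal (𝓞 K)}

lemma isPrimeTo_one : IsPrimeTo 𝔪 (1 : Ideal (𝓞 K)) := ⟨one_ne_zero, isCoprime_one_left⟩

lemma isPrimeTo_mul_iff {I J : Ideal (𝓞 K)} :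
    IsPrimeTo 𝔪 (I * J) ↔ IsPrimeTo 𝔪 I ∧ IsPrimeTo 𝔪 J :=
  ⟨fun h ↦ ⟨⟨left_ne_zero_of_mul h.1, h.2.of_mul_left_left⟩,
    ⟨right_ne_zero_of_mul h.1, h.2.of_mul_left_right⟩⟩,
    fun h ↦ ⟨mul_ne_zero h.1.1 h.2.1, h.1.2.mul_left h.2.2⟩⟩

/-- The multiplicative ideal function of a character of the ideals prime to `𝔪`. -/
def extendZero (𝔪 : Ideal (𝓞 K)) (f : Ideal (𝓞 K) → ℂ)
    (hone : f 1 = 1)
    (hf : ∀ I J, IsPrimeTo 𝔪 I → IsPrimeTo 𝔪 J → f (I * J) = f I * f J) :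
    Ideal (𝓞 K) →* ℂ where
  toFun I := if IsPrimeTo 𝔪 I then f I else 0
  map_one' := by rw [if_pos isPrimeTo_one, hone]
  map_mul' I J := by
    by_cases h : IsPrimeTo 𝔪 I ∧ IsPrimeTo 𝔪 J
    · rw [if_pos (isPrimeTo_mul_iff.mpr h), if_pos h.1, if_pos h.2, hf I J h.1 h.2]
    · rw [if_neg (mt isPrimeTo_mul_iff.mp h)]
      rcases not_and_or.mp h with h | h <;> simp [h]

lemma isCoprime_span_iff_of_sub_mem {x y : 𝓞 K} (h : x - y ∈ 𝔪) :
    IsCoprime (Ideal.span {x}) 𝔪 ↔ IsCoprime (Ideal.span {y}) 𝔪 := by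
  suffices key : ∀ a b : 𝓞 K, a - b ∈ 𝔪 → IsCoprime (Ideal.span {a}) 𝔪 →
      IsCoprime (Ideal.span {b}) 𝔪 from
    ⟨key x y h, key y x (by simpa using neg_mem h)⟩
  intro a b hab ha
  rw [Ideal.isCoprime_iff_exists] at ha ⊢
  obtain ⟨u, hu, v, hv, huv⟩ := ha
  obtain ⟨c, rfl⟩ := Ideal.mem_span_singleton'.mp hu
  exact ⟨c * b, Ideal.mul_mem_left _ c (Ideal.mem_span_singleton_self b), c * (a - b) + v,
    add_mem (Ideal.mul_mem_left _ c hab) hv, by linear_combination huv⟩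

lemma apply_one_eq_one {f : Ideal (𝓞 K) → ℂ} {d : ℕ} (hd : d ≠ 0)
    (hf : ∀ I J, IsPrimeTo 𝔪 I → IsPrimeTo 𝔪 J → f (I * J) = f I * f J)
    (hpow : ∀ I, IsPrimeTo 𝔪 I → f I ^ d = 1) : f 1 = 1 := by
  have h3 := hf 1 1 isPrimeTo_one isPrimeTo_one
  rw [one_mul] at h3
  have h4 : f 1 ≠ 0 := fun h ↦ by
    have h5 := hpow 1 isPrimeTo_one
    rw [h, zero_pow hd] at h5
    exact zero_ne_one h5
  exact mul_left_cancel₀ h4 (by rw [← h3, mul_one])

/-- The kernel of a nontrivial ray class character of prime order `d` has density at most `1/d`. -/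
theorem exists_mul_tsum_ker_le (h𝔪 : 𝔪 ≠ ⊥) {d : ℕ} (hd : d.Prime)
    (f : Ideal (𝓞 K) → ℂ)
    (hmul : ∀ I J, IsPrimeTo 𝔪 I → IsPrimeTo 𝔪 J → f (I * J) = f I * f J)
    (hray : ∀ x y : 𝓞 K, x ≠ 0 → y ≠ 0 → x - y ∈ 𝔪 → IsPrimeTo 𝔪 (Ideal.span {x}) →
      f (Ideal.span {x}) = f (Ideal.span {y}))
    (hpow : ∀ I, IsPrimeTo 𝔪 I → f I ^ d = 1)
    (hne : ∃ I, IsPrimeTo 𝔪 I ∧ f I ≠ 1) :
    ∃ C : ℝ, ∀ s ∈ Set.Ioc (1 : ℝ) 2, (d : ℝ) *
      ∑' v : {v : HeightOneSpectrum (𝓞 K) | IsPrimeTo 𝔪 v.asIdeal ∧ f v.asIdeal = 1},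
        (Ideal.absNorm (v : HeightOneSpectrum (𝓞 K)).asIdeal : ℝ) ^ (-s) ≤
      Real.log (1 / (s - 1)) + C := by
  have hf1 := apply_one_eq_one hd.ne_zero hmul hpow
  let χ : Fin d → Ideal (𝓞 K) →* ℂ := fun i ↦
    extendZero 𝔪 (fun I ↦ f I ^ (i : ℕ)) (by rw [hf1, one_pow])
      fun I J hI hJ ↦ by rw [hmul I J hI hJ, mul_pow]
  have hχ : ∀ i I, χ i I = if IsPrimeTo 𝔪 I then f I ^ (i : ℕ) else 0 := fun i I ↦ rfl
  have hnorm : ∀ I, IsPrimeTo 𝔪 I → ‖f I‖ = 1 := fun I hI ↦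
    Complex.norm_eq_one_of_pow_eq_one (hpow I hI) hd.ne_zero
  have h := ClassField.card_mul_tsum_le_log (⟨0, hd.pos⟩ : Fin d) (fun i ↦ ⇑(χ i))
    (fun i ↦ map_mul (χ i)) (fun i ↦ by rw [← Ideal.one_eq_top]; exact map_one (χ i)) ?_ ?_ ?_
    {v : HeightOneSpectrum (𝓞 K) | IsPrimeTo 𝔪 v.asIdeal ∧ f v.asIdeal = 1} ?_
  · simpa only [Fintype.card_fin] using h
  · intro i I
    rw [hχ]
    split_ifs with hI
    · simp [hnorm I hI]
    · simp
  · intro P _ _ k hk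
    simp only [hχ]
    by_cases hP : IsPrimeTo 𝔪 P
    · simp only [if_pos hP, ← pow_mul]
      have : ∀ i : Fin d, f P ^ ((i : ℕ) * k) = (f P ^ k) ^ (i : ℕ) := fun i ↦ by
        rw [← pow_mul, mul_comm]
      simp only [this]
      rw [Fin.sum_univ_eq_sum_range fun i ↦ (f P ^ k) ^ i]
      by_cases h1 : f P ^ k = 1
      · simp [h1]
      · rw [geom_sum_eq h1, ← pow_mul, mul_comm, pow_mul, hpow P hP, one_pow, sub_self, zero_div]
        simp
    · simp [hP, zero_pow hk.ne']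
  · intro i hi
    have hray' : ClassField.Analytic.IsRayChar 𝔪 (χ i) :=
      { eq_zero := fun I hI ↦ by
          rw [hχ, if_neg fun h ↦ hI (Ideal.isCoprime_iff_sup_eq.mp h.2)]
        norm_eq_one := fun I hI0 hI ↦ by
          rw [hχ, if_pos ⟨hI0, Ideal.isCoprime_iff_sup_eq.mpr hI⟩, norm_pow,
            hnorm I ⟨hI0, Ideal.isCoprime_iff_sup_eq.mpr hI⟩, one_pow]
        congr_mod := fun x y hx hy hc hxy ↦ by
          have hcx : IsPrimeTo 𝔪 (Ideal.span {x}) :=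
            ⟨by simpa using hx, Ideal.isCoprime_iff_sup_eq.mpr hc⟩
          have hcy : IsPrimeTo 𝔪 (Ideal.span {y}) :=
            ⟨by simpa using hy, (isCoprime_span_iff_of_sub_mem hxy).mp hcx.2⟩
          rw [hχ, hχ, if_pos hcx, if_pos hcy, hray x y hx hy hxy hcx] }
    obtain ⟨I, hI, hI1⟩ := hne
    have hne' : χ i I ≠ 1 := by
      rw [hχ, if_pos hI]
      intro h
      refine hI1 (orderOf_eq_one_iff.mp ?_)
      rcases (Nat.dvd_prime hd).mp (orderOf_dvd_of_pow_eq_one (hpow I hI)) with h1 | h1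
      · exact h1
      · exfalso
        have h2 := Nat.le_of_dvd (Nat.pos_of_ne_zero fun h0 ↦ hi (Fin.ext h0))
          (h1 ▸ orderOf_dvd_of_pow_eq_one h)
        exact absurd i.isLt (not_lt.mpr h2)
    obtain ⟨C, hC⟩ := ClassField.Analytic.exists_norm_tsum_lTerm_le hray' h𝔪
      ⟨I, hI.1, Ideal.isCoprime_iff_sup_eq.mp hI.2, hne'⟩
    exact ⟨C, fun s hs ↦ hC s hs.1 hs.2⟩
  · intro i v hv
    simp [hχ, hv.1, hv.2]

/-- A prime of degree one outside the kernels of a cubic and a quadratic ray class character. -/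
theorem exists_prime_ne_one_and_ne_one (h𝔪 : 𝔪 ≠ ⊥)
    (f g : Ideal (𝓞 K) → ℂ)
    (hfmul : ∀ I J, IsPrimeTo 𝔪 I → IsPrimeTo 𝔪 J → f (I * J) = f I * f J)
    (hfray : ∀ x y : 𝓞 K, x ≠ 0 → y ≠ 0 → x - y ∈ 𝔪 → IsPrimeTo 𝔪 (Ideal.span {x}) →
      f (Ideal.span {x}) = f (Ideal.span {y}))
    (hfpow : ∀ I, IsPrimeTo 𝔪 I → f I ^ 3 = 1) (hfne : ∃ I, IsPrimeTo 𝔪 I ∧ f I ≠ 1)
    (hgmul : ∀ I J, IsPrimeTo 𝔪 I → IsPrimeTo 𝔪 J → g (I * J) = g I * g J)
    (hgray : ∀ x y : 𝓞 K, x ≠ 0 → y ≠ 0 → x - y ∈ 𝔪 → IsPrimeTo 𝔪 (Ideal.span {x}) →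
      g (Ideal.span {x}) = g (Ideal.span {y}))
    (hgpow : ∀ I, IsPrimeTo 𝔪 I → g I ^ 2 = 1) (hgne : ∃ I, IsPrimeTo 𝔪 I ∧ g I ≠ 1)
    (S : Finset ℕ) :
    ∃ P : Ideal (𝓞 K), P.IsPrime ∧ (Ideal.absNorm P).Prime ∧ Ideal.absNorm P ∉ S ∧
      IsPrimeTo 𝔪 P ∧ f P ≠ 1 ∧ g P ≠ 1 := by
  by_contra hcon
  push Not at hcon
  obtain ⟨Cf, hCf⟩ := exists_mul_tsum_ker_le h𝔪 Nat.prime_three f hfmul hfray hfpow hfne
  obtain ⟨Cg, hCg⟩ := exists_mul_tsum_ker_le h𝔪 Nat.prime_two g hgmul hgray hgpow hgne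
  obtain ⟨C₀, hC₀⟩ := Density.exists_abs_tsum_idealCount_sub_log_le K
  -- the primes which may be exceptional
  set bad : Finset ℕ := S ∪ (Ideal.absNorm 𝔪).primeFactors with hbad
  set Cbad : ℝ := ∑ ℓ ∈ bad, (Density.idealCount K ℓ : ℝ) with hCbad
  set sf := {v : HeightOneSpectrum (𝓞 K) | IsPrimeTo 𝔪 v.asIdeal ∧ f v.asIdeal = 1}
  set sg := {v : HeightOneSpectrum (𝓞 K) | IsPrimeTo 𝔪 v.asIdeal ∧ g v.asIdeal = 1}
  let W : ℝ → HeightOneSpectrum (𝓞 K) → ℝ := fun s v ↦ (Ideal.absNorm v.asIdeal : ℝ) ^ (-s)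
  have key : ∀ s ∈ Set.Ioc (1 : ℝ) 2,
      ∑' ℓ : Nat.Primes, (Density.idealCount K ℓ : ℝ) * (ℓ : ℝ) ^ (-s) ≤
        Cbad + (∑' v : sf, W s v) + ∑' v : sg, W s v := by
    intro s hs
    have hW : ∀ v, 0 ≤ W s v := fun v ↦ by positivity
    have hsumm : Summable (W s) := (ClassField.PrimeSum.summable_wt K hs.1).comp_injective
      (i := fun v : HeightOneSpectrum (𝓞 K) ↦ v.asIdeal) fun v w h ↦ HeightOneSpectrum.ext h
    refine Real.tsum_le_of_sum_le (fun ℓ ↦ by positivity) fun T ↦ ?_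
    rw [← Finset.sum_filter_add_sum_filter_not T fun ℓ : Nat.Primes ↦ (ℓ : ℕ) ∈ bad, add_assoc]
    refine add_le_add ?_ ?_
    · refine (Finset.sum_le_sum fun ℓ _ ↦ mul_le_of_le_one_right (Nat.cast_nonneg _)
        (Real.rpow_le_one_of_one_le_of_nonpos (by exact_mod_cast ℓ.2.one_le)
          (by linarith [hs.1]))).trans ?_
      refine le_of_eq_of_le (Finset.sum_map (T.filter fun ℓ : Nat.Primes ↦ (ℓ : ℕ) ∈ bad)
        (⟨Subtype.val, Subtype.val_injective⟩ : Nat.Primes ↪ ℕ)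
        fun n ↦ (Density.idealCount K n : ℝ)).symm ?_
      refine Finset.sum_le_sum_of_subset_of_nonneg (fun n hn ↦ ?_) fun n _ _ ↦ Nat.cast_nonneg _
      obtain ⟨ℓ, hℓ, rfl⟩ := Finset.mem_map.mp hn
      exact (Finset.mem_filter.mp hℓ).2
    -- the good primes lie in one of the two kernels
    set T' := T.filter fun ℓ : Nat.Primes ↦ ¬ (ℓ : ℕ) ∈ bad
    have hfin : ∀ ℓ : Nat.Primes, {v : HeightOneSpectrum (𝓞 K) |
        Ideal.absNorm v.asIdeal = (ℓ : ℕ)}.Finite := fun ℓ ↦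
      (Ideal.finite_setOfPred_absNorm_eq (S := 𝓞 K) (ℓ : ℕ)).preimage
        (fun v _ w _ h ↦ HeightOneSpectrum.ext h)
    have hcount : ∀ ℓ : Nat.Primes, (Density.idealCount K ℓ : ℝ) * (ℓ : ℝ) ^ (-s) =
        ∑ v ∈ (hfin ℓ).toFinset, W s v := by
      intro ℓ
      rw [Finset.sum_congr rfl fun v hv ↦ show W s v = (ℓ : ℝ) ^ (-s) by
        simp only [Set.Finite.mem_toFinset, Set.mem_ofPred_eq] at hv; simp [W, hv],
        Finset.sum_const, nsmul_eq_mul]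
      congr 2
      rw [Density.idealCount, ← Nat.card_eq_finsetCard]
      refine Nat.card_congr (Equiv.ofBijective (fun I ↦ ⟨⟨I.1,
        Ideal.isPrime_of_irreducible_absNorm (by rw [I.2]; exact ℓ.2),
        fun h ↦ ℓ.2.ne_zero (by rw [← I.2, h, Ideal.absNorm_bot])⟩, by simpa using I.2⟩)
        ⟨fun I J h ↦ Subtype.ext (congrArg (fun v ↦ v.1.asIdeal) h),
          fun v ↦ ⟨⟨v.1.asIdeal, (Set.Finite.mem_toFinset (hfin ℓ)).mp v.2⟩, rfl⟩⟩)
    rw [Finset.sum_congr rfl fun ℓ _ ↦ hcount ℓ,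
      ← Finset.sum_biUnion (fun ℓ _ ℓ' _ hne ↦ Finset.disjoint_left.mpr fun v hv hv' ↦ hne (by
        simp only [Set.Finite.mem_toFinset, Set.mem_ofPred_eq] at hv hv'
        exact Subtype.ext (hv ▸ hv')))]
    set V := T'.biUnion fun ℓ ↦ (hfin ℓ).toFinset
    have hV : ∀ v ∈ V, W s v ≤ sf.indicator (W s) v + sg.indicator (W s) v := by
      intro v hv
      obtain ⟨ℓ, hℓ, hv'⟩ := Finset.mem_biUnion.mp hv
      simp only [Set.Finite.mem_toFinset, Set.mem_ofPred_eq] at hv'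
      have hℓb : (ℓ : ℕ) ∉ bad := (Finset.mem_filter.mp hℓ).2
      simp only [hbad, Finset.mem_union, not_or] at hℓb
      have hcop : IsPrimeTo 𝔪 v.asIdeal := by
        refine ⟨v.ne_bot, ?_⟩
        rw [Ideal.isCoprime_iff_sup_eq]
        by_contra hne
        have heq : v.asIdeal = v.asIdeal ⊔ 𝔪 := v.isMaximal.eq_of_le hne le_sup_left
        refine hℓb.2 (Nat.mem_primeFactors.mpr ⟨ℓ.2, ?_, Ideal.absNorm_eq_zero_iff.not.mpr h𝔪⟩)
        rw [← hv']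
        exact Ideal.absNorm_dvd_absNorm_of_le (le_sup_right.trans heq.ge)
      by_cases h1 : f v.asIdeal = 1
      · rw [Set.indicator_of_mem (show v ∈ sf from ⟨hcop, h1⟩)]
        exact le_add_of_nonneg_right (Set.indicator_nonneg (fun _ _ ↦ hW _) _)
      · have h2 := hcon v.asIdeal v.isPrime (hv' ▸ ℓ.2) (hv' ▸ hℓb.1) hcop h1
        rw [Set.indicator_of_mem (show v ∈ sg from ⟨hcop, h2⟩)]
        exact le_add_of_nonneg_left (Set.indicator_nonneg (fun _ _ ↦ hW _) _)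
    refine (Finset.sum_le_sum hV).trans ?_
    rw [Finset.sum_add_distrib, tsum_subtype sf (W s), tsum_subtype sg (W s)]
    exact add_le_add
      ((hsumm.indicator _).sum_le_tsum _ fun v _ ↦ Set.indicator_nonneg (fun _ _ ↦ hW _) v)
      ((hsumm.indicator _).sum_le_tsum _ fun v _ ↦ Set.indicator_nonneg (fun _ _ ↦ hW _) v)
  have htend : Tendsto (fun s : ℝ ↦ Real.log (1 / (s - 1))) (𝓝[>] 1) atTop := by
    refine Real.tendsto_log_atTop.comp ?_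
    have h : Tendsto (fun s : ℝ ↦ s - 1) (𝓝[>] 1) (𝓝[>] 0) := by
      refine tendsto_nhdsWithin_of_tendsto_nhds_of_eventually_within _ ?_ ?_
      · exact ((continuous_sub_right (1 : ℝ)).tendsto' 1 0 (sub_self 1)).mono_left
          nhdsWithin_le_nhds
      · filter_upwards [self_mem_nhdsWithin] with s hs
        exact sub_pos.mpr (Set.mem_Ioi.mp hs)
    simpa [one_div, Function.comp_def] using tendsto_inv_nhdsGT_zero.comp h
  obtain ⟨s, ⟨-, hlow⟩, hs, hbig⟩ := (hC₀.and ((show ∀ᶠ s in 𝓝[>] (1 : ℝ), s ∈ Set.Ioc (1 : ℝ) 2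
      from Ioc_mem_nhdsGT (by norm_num)).and
    (htend.eventually_gt_atTop (6 * C₀ + 6 * Cbad + 2 * Cf + 3 * Cg)))).exists
  have hf := hCf s hs
  have hg := hCg s hs
  have hk := key s hs
  obtain ⟨hlow, -⟩ := abs_le.mp hlow
  simp only [Nat.cast_ofNat] at hf hg
  linarith

end Fermat.Agent.TwoAdic.PrimeClasses
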