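import Mathlib.GroupTheory.PGroup
import Mathlib.GroupTheory.Perm.Cycle.Type
import Mathlib.GroupTheory.FiniteAbelian.Duality
import Mathlib.RingTheory.RootsOfUnity.AlgebraicallyClosed
import Mathlib.Analysis.Complex.Polynomial.Basic
import Fermat.Agent.TwoAdic.PrimeClasses.Density

/-!
# Primes outside the kernel of a cubic character generate a quotient 2-group of ideal classes

`cl` is a congruence homomorphism from the ideals prime to `𝔪` onto a finite 2-group `G` and `χ` a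
nontrivial one with values of order dividing 3. The classes of the primes `P` of degree one with
`χ P ≠ 1`, outside any finite set, generate `G`.
-/

set_option autoImplicit false

noncomputable section

open NumberField

namespace Fermat.Agent.TwoAdic.PrimeClasses

variable {K : Type*} [Field K] [NumberField K]

/-- A character of exponent two trivial on a given proper subgroup of a finite abelian 2-group. -/
lemma exists_quadratic_char {G : Type*} [CommGroup G] [Finite G] (hG : IsPGroup 2 G)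
    (H : Subgroup G) (hH : H ≠ ⊤) :
    ∃ φ : G →* ℂˣ, (∀ x, φ x ^ 2 = 1) ∧ (∀ x ∈ H, φ x = 1) ∧ ∃ x, φ x ≠ 1 := by
  set R : Subgroup G := H ⊔ (powMonoidHom 2 : G →* G).range with hRdef
  have hR : R ≠ ⊤ := by
    intro hR
    set sq : G ⧸ H →* G ⧸ H := powMonoidHom 2
    have hsurj : Function.Surjective sq := fun q ↦ by
      obtain ⟨g, rfl⟩ := QuotientGroup.mk_surjective q
      obtain ⟨h, hh, y, hy, rfl⟩ := Subgroup.mem_sup.mp (hR ▸ Subgroup.mem_top g : g ∈ R)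
      obtain ⟨z, rfl⟩ := MonoidHom.mem_range.mp hy
      refine ⟨(z : G ⧸ H), ?_⟩
      simp [sq, (QuotientGroup.eq_one_iff h).mpr hh]
    obtain ⟨x, hx⟩ : ∃ x : G ⧸ H, orderOf x = 2 := by
      have h2 : IsPGroup 2 (G ⧸ H) := hG.to_quotient H
      obtain ⟨k, hk⟩ := IsPGroup.iff_card.mp h2
      refine exists_prime_orderOf_dvd_card' 2 ?_
      rw [hk]
      refine dvd_pow_self 2 fun h0 ↦ hH ?_
      rw [h0, pow_zero] at hk
      exact Subgroup.index_eq_one.mp hk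
    have hinj := Finite.injective_iff_surjective.mpr hsurj
    have : x = 1 := hinj (by
      simp only [sq, powMonoidHom_apply, one_pow]
      rw [← hx]
      exact pow_orderOf_eq_one x)
    rw [this, orderOf_one] at hx
    omega
  obtain ⟨g, hg⟩ := SetLike.exists_not_mem_of_ne_top R hR rfl
  have hg' : (g : G ⧸ R) ≠ 1 := fun h ↦ hg ((QuotientGroup.eq_one_iff g).mp h)
  obtain ⟨ψ, hψ⟩ := CommGroup.exists_apply_ne_one_of_hasEnoughRootsOfUnity (G ⧸ R) ℂ hg'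
  refine ⟨ψ.comp (QuotientGroup.mk' R), fun x ↦ ?_, fun x hx ↦ ?_, g, hψ⟩
  · rw [← map_pow, MonoidHom.comp_apply, QuotientGroup.mk'_apply,
      (QuotientGroup.eq_one_iff (x ^ 2)).mpr (Subgroup.mem_sup_right (MonoidHom.mem_range.mpr ⟨x, rfl⟩)), map_one]
  · rw [MonoidHom.comp_apply, QuotientGroup.mk'_apply,
      (QuotientGroup.eq_one_iff _).mpr (Subgroup.mem_sup_left hx), map_one]

variable {𝔪 : Ideal (𝓞 K)}

/-- The classes of the primes of degree one with `χ ≠ 1` generate. -/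
theorem closure_primeClasses_eq_top (h𝔪 : 𝔪 ≠ ⊥)
    {G H : Type*} [CommGroup G] [Finite G] [CommGroup H] [Finite H] (hG : IsPGroup 2 G)
    (cl : Ideal (𝓞 K) → G)
    (hclmul : ∀ I J, IsPrimeTo 𝔪 I → IsPrimeTo 𝔪 J → cl (I * J) = cl I * cl J)
    (hclray : ∀ x y : 𝓞 K, x ≠ 0 → y ≠ 0 → x - y ∈ 𝔪 → IsPrimeTo 𝔪 (Ideal.span {x}) →
      cl (Ideal.span {x}) = cl (Ideal.span {y}))
    (hclsurj : ∀ g, ∃ I, IsPrimeTo 𝔪 I ∧ cl I = g)
    (χ : Ideal (𝓞 K) → H)
    (hχmul : ∀ I J, IsPrimeTo 𝔪 I → IsPrimeTo 𝔪 J → χ (I * J) = χ I * χ J)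
    (hχray : ∀ x y : 𝓞 K, x ≠ 0 → y ≠ 0 → x - y ∈ 𝔪 → IsPrimeTo 𝔪 (Ideal.span {x}) →
      χ (Ideal.span {x}) = χ (Ideal.span {y}))
    (hχ3 : ∀ I, IsPrimeTo 𝔪 I → χ I ^ 3 = 1) (hχne : ∃ I, IsPrimeTo 𝔪 I ∧ χ I ≠ 1)
    (S : Finset ℕ) :
    Subgroup.closure {g : G | ∃ P : Ideal (𝓞 K), P.IsPrime ∧ (Ideal.absNorm P).Prime ∧
      Ideal.absNorm P ∉ S ∧ IsPrimeTo 𝔪 P ∧ χ P ≠ 1 ∧ cl P = g} = ⊤ := by
  by_contra hne
  obtain ⟨φ, hφ2, hφker, g, hg⟩ := exists_quadratic_char hG _ hne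
  obtain ⟨I₀, hI₀, hI₀1⟩ := hχne
  obtain ⟨φ', hφ'⟩ := CommGroup.exists_apply_ne_one_of_hasEnoughRootsOfUnity H ℂ hI₀1
  obtain ⟨P, hP, hPp, hPS, hPm, hPf, hPg⟩ := exists_prime_ne_one_and_ne_one h𝔪
    (fun I ↦ (φ' (χ I) : ℂ)) (fun I ↦ (φ (cl I) : ℂ))
    (fun I J hI hJ ↦ by simp [hχmul I J hI hJ])
    (fun x y hx hy hxy hc ↦ by simp [hχray x y hx hy hxy hc])
    (fun I hI ↦ by rw [← Units.val_pow_eq_pow_val, ← map_pow, hχ3 I hI, map_one, Units.val_one])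
    ⟨I₀, hI₀, fun h ↦ hφ' (Units.val_eq_one.mp h)⟩
    (fun I J hI hJ ↦ by simp [hclmul I J hI hJ])
    (fun x y hx hy hxy hc ↦ by simp [hclray x y hx hy hxy hc])
    (fun I _ ↦ by rw [← Units.val_pow_eq_pow_val, hφ2, Units.val_one])
    (by
      obtain ⟨I, hI, rfl⟩ := hclsurj g
      exact ⟨I, hI, fun h ↦ hg (Units.val_eq_one.mp h)⟩) S
  refine hPg ?_
  rw [hφker (cl P) (Subgroup.subset_closure ⟨P, hP, hPp, hPS, hPm, fun h ↦ hPf (by simp [h]), rfl⟩),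
    Units.val_one]

end Fermat.Agent.TwoAdic.PrimeClasses
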