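import Mathlib.Algebra.MonoidAlgebra.Basic
import Mathlib.RingTheory.LocalRing.ResidueField.Basic
import Mathlib.RingTheory.Nakayama
import Mathlib.RingTheory.Finiteness.Basic
import Fermat.Agent.TwoAdic.PrimeClasses.Generate

/-!
# The image algebra

`O` is a local ring with residue characteristic 2 and `G` a finite abelian 2-group. If the `g i`
generate `G` and the units `u i` are residually distinct from their inverses, the elements
`u i [g i] + (u i)⁻¹ [g i]⁻¹` generate `O[G]`. No completeness is needed: residually the nilpotent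
`[g] - 1` is a polynomial in `u [g] + u⁻¹ [g]⁻¹`, and Nakayama applies.
-/

set_option autoImplicit false

noncomputable section

open NumberField

namespace Fermat.Agent.TwoAdic.PrimeClasses

/-- If the nilpotent `e` generates and `f = c e + e² h` with `c` a unit scalar, then `f`
generates. -/
lemma adjoin_eq_top_of_nilpotent {k A : Type*} [CommRing k] [CommRing A] [Algebra k A] {e f : A}
    (he : IsNilpotent e) (hgen : Algebra.adjoin k {e} = ⊤) {c : k} (hc : IsUnit c) (h : A)
    (hf : f = algebraMap k A c * e + e ^ 2 * h) :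
    Algebra.adjoin k {f} = ⊤ := by
  obtain ⟨N, hN⟩ := he
  obtain ⟨c', rfl⟩ := hc
  have hsplit : ∀ x : A, ∃ r : k, e ∣ x - algebraMap k A r := by
    intro x
    have hx : x ∈ Algebra.adjoin k {e} := hgen ▸ Algebra.mem_top
    induction hx using Algebra.adjoin_induction with
    | mem y hy => exact ⟨0, by rw [Set.mem_singleton_iff.mp hy]; simp⟩
    | algebraMap r => exact ⟨r, by simp⟩
    | add y z _ _ hy hz =>
      obtain ⟨r, hr⟩ := hy
      obtain ⟨r', hr'⟩ := hz
      refine ⟨r + r', ?_⟩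
      rw [map_add, show y + z - (algebraMap k A r + algebraMap k A r') =
        (y - algebraMap k A r) + (z - algebraMap k A r') by ring]
      exact dvd_add hr hr'
    | mul y z _ _ hy hz =>
      obtain ⟨r, hr⟩ := hy
      obtain ⟨r', hr'⟩ := hz
      refine ⟨r * r', ?_⟩
      rw [map_mul, show y * z - algebraMap k A r * algebraMap k A r' =
        (y - algebraMap k A r) * z + algebraMap k A r * (z - algebraMap k A r') by ring]
      exact dvd_add (hr.mul_right z) (hr'.mul_left _)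
  set f' := algebraMap k A (↑c'⁻¹ : k) * f with hf'
  have hf'mem : f' ∈ Algebra.adjoin k {f} :=
    mul_mem (Subalgebra.algebraMap_mem _ _) (Algebra.self_mem_adjoin_singleton k f)
  have hf'eq : f' = e * (1 + e * (algebraMap k A (↑c'⁻¹ : k) * h)) := by
    have : algebraMap k A (↑c'⁻¹ : k) * algebraMap k A c' = 1 := by
      rw [← map_mul, Units.inv_mul, map_one]
    rw [hf', hf]
    linear_combination e * this
  have key : ∀ (n : ℕ) (x : A), ∃ p ∈ Algebra.adjoin k {f}, e ^ n ∣ x - p := by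
    intro n
    induction n with
    | zero => exact fun x ↦ ⟨0, zero_mem _, by simp⟩
    | succ n ih =>
      intro x
      obtain ⟨p, hp, b, hb⟩ := ih x
      obtain ⟨r, z, hz⟩ := hsplit b
      obtain ⟨w, hw⟩ : e ∣ (1 + e * (algebraMap k A (↑c'⁻¹ : k) * h)) ^ n - 1 ^ n :=
        (Dvd.intro (algebraMap k A (↑c'⁻¹ : k) * h) (by ring)).trans (sub_dvd_pow_sub_pow _ _ n)
      refine ⟨p + algebraMap k A r * f' ^ n,
        add_mem hp (mul_mem (Subalgebra.algebraMap_mem _ _) (pow_mem hf'mem _)),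
        z - algebraMap k A r * w, ?_⟩
      rw [hf'eq, mul_pow]
      rw [one_pow] at hw
      linear_combination hb + e ^ n * hz - algebraMap k A r * e ^ n * hw
  rw [eq_top_iff]
  intro x _
  obtain ⟨p, hp, hd⟩ := key N x
  rw [hN, zero_dvd_iff, sub_eq_zero] at hd
  exact hd ▸ hp

/-- In a generated algebra: `f = u x + v y` generates if `x y = 1`, `x - 1` is nilpotent and
`u - v` is a unit. -/
lemma adjoin_add_eq_top {k A : Type*} [CommRing k] [CommRing A] [Algebra k A] {x y : A}
    (hxy : x * y = 1) (hnil : IsNilpotent (x - 1)) (hgen : Algebra.adjoin k {x} = ⊤) {u v : k}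
    (huv : IsUnit (u - v)) :
    Algebra.adjoin k {algebraMap k A u * x + algebraMap k A v * y} = ⊤ := by
  set F := algebraMap k A u * x + algebraMap k A v * y with hFdef
  have hgen' : Algebra.adjoin k {x - 1} = ⊤ := by
    rw [eq_top_iff, ← hgen]
    refine Algebra.adjoin_le (Set.singleton_subset_iff.mpr ?_)
    have h := add_mem (Algebra.self_mem_adjoin_singleton k (x - 1))
      (one_mem (Algebra.adjoin k {x - 1}))
    rwa [sub_add_cancel] at h
  have h := adjoin_eq_top_of_nilpotent hnil hgen' huv (algebraMap k A v * y)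
    (f := F - algebraMap k A (u + v)) (by
      rw [hFdef, map_add, map_sub]
      linear_combination (algebraMap k A v * (2 - x)) * hxy)
  rw [eq_top_iff, ← h]
  exact Algebra.adjoin_le (Set.singleton_subset_iff.mpr
    (sub_mem (Algebra.self_mem_adjoin_singleton k F) (Subalgebra.algebraMap_mem _ _)))

/-- In characteristic `2`, `[g]` is a polynomial in `u [g] + u⁻¹ [g]⁻¹`. -/
lemma of_mem_adjoin_add_inv {k G : Type*} [Field k] [CharP k 2] [CommGroup G] (g : G) {n : ℕ}
    (hg : g ^ 2 ^ n = 1) (u : kˣ) (hu : (u : k) ^ 2 ≠ 1) :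
    MonoidAlgebra.of k G g ∈ Algebra.adjoin k
      {MonoidAlgebra.single g (u : k) + MonoidAlgebra.single g⁻¹ ((u⁻¹ : kˣ) : k)} := by
  let H := Subgroup.zpowers g
  let g' : H := ⟨g, Subgroup.mem_zpowers g⟩
  let φ : MonoidAlgebra k H →ₐ[k] MonoidAlgebra k G := MonoidAlgebra.mapDomainAlgHom k k H.subtype
  set x : MonoidAlgebra k H := MonoidAlgebra.of k H g' with hx
  set y : MonoidAlgebra k H := MonoidAlgebra.of k H g'⁻¹ with hy
  have hg' : g' ^ 2 ^ n = 1 := Subtype.ext (by simpa [g'] using hg)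
  have hxy : x * y = 1 := by rw [hx, hy, ← map_mul, mul_inv_cancel, map_one]
  haveI : CharP (MonoidAlgebra k H) 2 :=
    charP_of_injective_algebraMap (algebraMap k (MonoidAlgebra k H)).injective 2
  have hnil : IsNilpotent (x - 1) := ⟨2 ^ n, by
    rw [sub_pow_char_pow, hx, ← map_pow, hg', map_one, one_pow, sub_self]⟩
  have hgen : Algebra.adjoin k {x} = ⊤ := by
    rw [eq_top_iff]
    suffices hall : ∀ z, z ∈ Algebra.adjoin k {x} from fun z _ ↦ hall z
    intro z
    induction z using MonoidAlgebra.induction_on with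
    | of h =>
      obtain ⟨j, hj⟩ := ((isOfFinOrder_iff_pow_eq_one.mpr
        ⟨2 ^ n, Nat.two_pow_pos n, hg⟩).mem_powers_iff_mem_zpowers).mpr h.2
      rw [show h = g' ^ j from Subtype.ext (by simpa [g'] using hj.symm), map_pow]
      exact pow_mem (Algebra.self_mem_adjoin_singleton k x) _
    | add a b ha hb => exact add_mem ha hb
    | smul r a ha => exact Subalgebra.smul_mem _ ha r
  have hunit : IsUnit ((u : k) - (u⁻¹ : kˣ)) := by
    refine isUnit_iff_ne_zero.mpr fun h ↦ hu ?_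
    rw [sq]
    conv_lhs => arg 2; rw [sub_eq_zero.mp h]
    exact u.mul_inv
  have hmem : φ x ∈ (Algebra.adjoin k {algebraMap k (MonoidAlgebra k H) u * x +
      algebraMap k (MonoidAlgebra k H) (u⁻¹ : kˣ) * y}).map φ :=
    ⟨x, by rw [adjoin_add_eq_top hxy hnil hgen hunit]; exact Algebra.mem_top, rfl⟩
  rw [AlgHom.map_adjoin, Set.image_singleton] at hmem
  simpa [φ, hx, hy, g', MonoidAlgebra.of_apply, MonoidAlgebra.mapDomain_add, MonoidAlgebra.mapDomain_single] using hmem

/-- The elements `u i [g i] + (u i)⁻¹ [g i]⁻¹` generate `O[G]`. -/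
theorem adjoin_range_eq_top {O : Type*} [CommRing O] [IsLocalRing O]
    (h2 : (2 : O) ∈ IsLocalRing.maximalIdeal O) {G : Type*} [CommGroup G] [Finite G]
    (hG : IsPGroup 2 G) {ι : Type*} (g : ι → G) (u : ι → Oˣ)
    (hu : ∀ i, IsLocalRing.residue O (u i : O) ^ 2 ≠ 1)
    (hgen : Subgroup.closure (Set.range g) = ⊤) :
    Algebra.adjoin O (Set.range fun i ↦ MonoidAlgebra.single (g i) (u i : O) +
      MonoidAlgebra.single (g i)⁻¹ (((u i)⁻¹ : Oˣ) : O)) = ⊤ := by
  set k := IsLocalRing.ResidueField O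
  set res : O →+* k := IsLocalRing.residue O
  haveI : CharP k 2 := CharTwo.of_one_ne_zero_of_two_eq_zero one_ne_zero
    (by rw [← map_ofNat res 2]; exact (IsLocalRing.residue_eq_zero_iff 2).mpr h2)
  set A := Algebra.adjoin O (Set.range fun i ↦ MonoidAlgebra.single (g i) (u i : O) +
      MonoidAlgebra.single (g i)⁻¹ (((u i)⁻¹ : Oˣ) : O)) with hA
  -- the reduction
  let π : MonoidAlgebra O G →+* MonoidAlgebra k G := MonoidAlgebra.mapRingHom G res
  have hπ : ∀ (h : G) (r : O), π (MonoidAlgebra.single h r) = MonoidAlgebra.single h (res r) :=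
    fun h r ↦ by simp [π]
  let Abar : Subalgebra k (MonoidAlgebra k G) :=
    { A.toSubsemiring.map π with
      algebraMap_mem' := fun r ↦ by
        obtain ⟨r, rfl⟩ := IsLocalRing.residue_surjective r
        exact ⟨algebraMap O _ r, A.algebraMap_mem r, by
          simp [MonoidAlgebra.coe_algebraMap, hπ, res]⟩ }
  have hof : ∀ h : G, MonoidAlgebra.of k G h ∈ Abar := by
    intro h
    have hh : h ∈ Subgroup.closure (Set.range g) := hgen ▸ Subgroup.mem_top h
    rw [← Subgroup.mem_toSubmonoid, Subgroup.closure_toSubmonoid_of_finite] at hh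
    induction hh using Submonoid.closure_induction with
    | mem x hx =>
      obtain ⟨i, rfl⟩ := hx
      obtain ⟨n, hn⟩ := hG (g i)
      refine Algebra.adjoin_le (Set.singleton_subset_iff.mpr ?_)
        (of_mem_adjoin_add_inv (g i) hn (Units.map (res : O →* k) (u i)) (hu i))
      refine ⟨_, Algebra.subset_adjoin ⟨i, rfl⟩, ?_⟩
      simp [map_add, hπ]
    | one => rw [map_one]; exact one_mem _
    | mul x y _ _ hx hy => rw [map_mul]; exact mul_mem hx hy
  -- Nakayama
  haveI : Module.Finite O (MonoidAlgebra O G) :=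
    Module.Finite.of_basis (MonoidAlgebra.basis G O)
  have hle : (⊤ : Submodule O (MonoidAlgebra O G)) ≤
      Subalgebra.toSubmodule A ⊔ IsLocalRing.maximalIdeal O • ⊤ := by
    rintro z -
    induction z using MonoidAlgebra.induction_on with
    | of h =>
      obtain ⟨a, ha, hah⟩ := hof h
      have hd : ∀ h' : G, res ((MonoidAlgebra.of O G h - a).coeff h') = 0 := fun h' ↦ by
        have : π (MonoidAlgebra.of O G h - a) = 0 := by
          rw [map_sub, hah, MonoidAlgebra.of_apply, hπ, map_one, MonoidAlgebra.of_apply, sub_self]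
        have h0 := congrArg (fun w ↦ w.coeff h') this
        rcases eq_or_ne h' h with rfl | hne
        · simpa [π] using h0
        · simpa [π, hne, hne.symm] using h0
      rw [show MonoidAlgebra.of O G h = a + (MonoidAlgebra.of O G h - a) by ring]
      refine Submodule.add_mem_sup ha ?_
      rw [← MonoidAlgebra.sum_coeff_single (MonoidAlgebra.of O G h - a)]
      refine Submodule.sum_mem _ fun h' _ ↦ ?_
      rw [show MonoidAlgebra.single h' ((MonoidAlgebra.of O G h - a).coeff h') =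
        ((MonoidAlgebra.of O G h - a).coeff h') • MonoidAlgebra.single h' (1 : O) by
          rw [MonoidAlgebra.smul_single, smul_eq_mul, mul_one]]
      exact Submodule.smul_mem_smul ((IsLocalRing.residue_eq_zero_iff _).mp (hd h'))
        Submodule.mem_top
    | add a b ha hb => exact Submodule.add_mem _ ha hb
    | smul r a ha => exact Submodule.smul_mem _ r ha
  have htop := Submodule.le_of_le_smul_of_le_jacobson_bot Module.Finite.fg_top
    (IsLocalRing.maximalIdeal_le_jacobson _) hle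
  rw [eq_top_iff]
  exact fun z _ ↦ htop (Submodule.mem_top)

variable {K : Type*} [Field K] [NumberField K]

/-- The image algebra: the sums over the two primes above split `p`, `p` outside a finite set, of
`u(P) [cl P]` generate `O[G]`. -/
theorem adjoin_primeValues_eq_top {𝔪 : Ideal (𝓞 K)} (h𝔪 : 𝔪 ≠ ⊥)
    {G H : Type*} [CommGroup G] [Finite G] [CommGroup H] [Finite H] (hG : IsPGroup 2 G)
    (cl : Ideal (𝓞 K) → G)
    (hclmul : ∀ I J, IsPrimeTo 𝔪 I → IsPrimeTo 𝔪 J → cl (I * J) = cl I * cl J)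
    (hclray : ∀ x y : 𝓞 K, x ≠ 0 → y ≠ 0 → x - y ∈ 𝔪 → IsPrimeTo 𝔪 (Ideal.span {x}) →
      cl (Ideal.span {x}) = cl (Ideal.span {y}))
    (hclsurj : ∀ g, ∃ I, IsPrimeTo 𝔪 I ∧ cl I = g)
    (χ : Ideal (𝓞 K) → H)
    (hχmul : ∀ I J, IsPrimeTo 𝔪 I → IsPrimeTo 𝔪 J → χ (I * J) = χ I * χ J)
    (hχray : ∀ x y : 𝓞 K, x ≠ 0 → y ≠ 0 → x - y ∈ 𝔪 → IsPrimeTo 𝔪 (Ideal.span {x}) →
      χ (Ideal.span {x}) = χ (Ideal.span {y}))
    (hχ3 : ∀ I, IsPrimeTo 𝔪 I → χ I ^ 3 = 1) (hχne : ∃ I, IsPrimeTo 𝔪 I ∧ χ I ≠ 1)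
    (S : Finset ℕ) {O : Type*} [CommRing O] [IsLocalRing O]
    (h2 : (2 : O) ∈ IsLocalRing.maximalIdeal O) (u : Ideal (𝓞 K) → Oˣ)
    (hu : ∀ P : Ideal (𝓞 K), P.IsPrime → IsPrimeTo 𝔪 P → χ P ≠ 1 →
      IsLocalRing.residue O (u P : O) ^ 2 ≠ 1) :
    Algebra.adjoin O {x : MonoidAlgebra O G | ∃ P : Ideal (𝓞 K), P.IsPrime ∧
      (Ideal.absNorm P).Prime ∧ Ideal.absNorm P ∉ S ∧ IsPrimeTo 𝔪 P ∧ χ P ≠ 1 ∧
      x = MonoidAlgebra.single (cl P) (u P : O) +
        MonoidAlgebra.single (cl P)⁻¹ (((u P)⁻¹ : Oˣ) : O)} = ⊤ := by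
  let ι := {P : Ideal (𝓞 K) // P.IsPrime ∧ (Ideal.absNorm P).Prime ∧ Ideal.absNorm P ∉ S ∧
    IsPrimeTo 𝔪 P ∧ χ P ≠ 1}
  have hgen : Subgroup.closure (Set.range fun P : ι ↦ cl P.1) = ⊤ := by
    rw [eq_top_iff,
      ← closure_primeClasses_eq_top h𝔪 hG cl hclmul hclray hclsurj χ hχmul hχray hχ3 hχne S]
    refine Subgroup.closure_mono ?_
    rintro _ ⟨P, h1, h2, h3, h4, h5, rfl⟩
    exact ⟨⟨P, h1, h2, h3, h4, h5⟩, rfl⟩
  rw [eq_top_iff, ← adjoin_range_eq_top h2 hG (fun P : ι ↦ cl P.1) (fun P : ι ↦ u P.1)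
    (fun P ↦ hu P.1 P.2.1 P.2.2.2.2.1 P.2.2.2.2.2) hgen]
  refine Algebra.adjoin_mono ?_
  rintro _ ⟨⟨P, h1, h2, h3, h4, h5⟩, rfl⟩
  exact ⟨P, h1, h2, h3, h4, h5, rfl⟩

end Fermat.Agent.TwoAdic.PrimeClasses
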