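import Fermat.Agent.TwoAdic.RingClass.Exact
import Fermat.Agent.TwoAdic.PrimeClasses.ImageAlgebra

/-!
# Prime classes in a ring class group

`π` is a 2-group quotient of the ring class group of conductor `f` and `χ` a nontrivial character
of order dividing 3: the split primes with `χ ≠ 1` generate, and the image algebra is the whole
group ring.
-/

set_option autoImplicit false

noncomputable section

open NumberField
open scoped Classical

namespace Fermat.Agent.TwoAdic.PrimeClasses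

open RingClass

variable {K : Type*} [Field K] [NumberField K] {f : ℕ} [NeZero f]
  {G H : Type*} [CommGroup G] [CommGroup H]

/-- A homomorphism on ring classes as a function on ideals, `1` off the ideals prime to `f`. -/
def rcVal (φ : RingClassGroup K f →* G) (I : Ideal (𝓞 K)) : G :=
  if h : I ∈ primeTo K f then φ (cls ⟨I, h⟩) else 1

omit [NumberField K] [NeZero f] in
lemma rcVal_of_mem (φ : RingClassGroup K f →* G) {I : Ideal (𝓞 K)} (h : I ∈ primeTo K f) :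
    rcVal φ I = φ (cls ⟨I, h⟩) := dif_pos h

omit [NumberField K] [NeZero f] in
lemma rcVal_mul (φ : RingClassGroup K f →* G) (I J : Ideal (𝓞 K))
    (hI : IsPrimeTo (condIdeal K f) I) (hJ : IsPrimeTo (condIdeal K f) J) :
    rcVal φ (I * J) = rcVal φ I * rcVal φ J := by
  rw [rcVal_of_mem φ hI, rcVal_of_mem φ hJ, rcVal_of_mem φ (mul_mem hI hJ), ← map_mul, ← map_mul]
  rfl

lemma rcVal_span_congr (φ : RingClassGroup K f →* G) (x y : 𝓞 K) (_hx : x ≠ 0) (hy : y ≠ 0)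
    (hxy : x - y ∈ condIdeal K f) (hcx : IsPrimeTo (condIdeal K f) (Ideal.span {x})) :
    rcVal φ (Ideal.span {x}) = rcVal φ (Ideal.span {y}) := by
  have hcy : IsPrimeTo (condIdeal K f) (Ideal.span {y}) :=
    ⟨by simpa using hy, (isCoprime_span_iff_of_sub_mem hxy).mp hcx.2⟩
  rw [rcVal_of_mem φ hcx, rcVal_of_mem φ hcy, cls_span_congr hcx hcy (Ideal.Quotient.eq.mpr hxy)]

omit [NumberField K] [NeZero f] in
lemma rcVal_surjective (φ : RingClassGroup K f →* G) (hφ : Function.Surjective φ) (g : G) :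
    ∃ I, IsPrimeTo (condIdeal K f) I ∧ rcVal φ I = g := by
  obtain ⟨c, rfl⟩ := hφ g
  obtain ⟨⟨I, hI⟩, rfl⟩ := cls_surjective c
  exact ⟨I, hI, rcVal_of_mem φ hI⟩

variable [Finite G] [Finite H] (π : RingClassGroup K f →* G) (χ : RingClassGroup K f →* H)

omit [Finite G] [Finite H] in
lemma rcVal_pow_three (hχ3 : ∀ c, χ c ^ 3 = 1) (I : Ideal (𝓞 K))
    (hI : IsPrimeTo (condIdeal K f) I) : rcVal χ I ^ 3 = 1 := by
  rw [rcVal_of_mem χ hI]
  exact hχ3 _

/-- The classes of the split primes with `χ ≠ 1` generate the 2-group quotient. -/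
theorem closure_ringClassPrimes_eq_top (hπ : Function.Surjective π) (hG : IsPGroup 2 G)
    (hχ3 : ∀ c, χ c ^ 3 = 1) (hχne : χ ≠ 1) (S : Finset ℕ) :
    Subgroup.closure {g : G | ∃ (P : Ideal (𝓞 K)) (hP : P ∈ primeTo K f), P.IsPrime ∧
      (Ideal.absNorm P).Prime ∧ Ideal.absNorm P ∉ S ∧
      χ (cls ⟨P, hP⟩) ≠ 1 ∧ π (cls ⟨P, hP⟩) = g} = ⊤ := by
  obtain ⟨c, hc⟩ : ∃ c, χ c ≠ 1 := by
    by_contra! h
    exact hχne (MonoidHom.ext h)
  obtain ⟨⟨I, hI⟩, rfl⟩ := cls_surjective c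
  rw [eq_top_iff, ← closure_primeClasses_eq_top condIdeal_ne_bot hG (rcVal π) (rcVal_mul π)
    (rcVal_span_congr π) (rcVal_surjective π hπ) (rcVal χ) (rcVal_mul χ) (rcVal_span_congr χ)
    (rcVal_pow_three χ hχ3) ⟨I, hI, by rwa [rcVal_of_mem χ hI]⟩ S]
  refine Subgroup.closure_mono ?_
  rintro _ ⟨P, hP, hPp, hPS, hPm, hPχ, rfl⟩
  refine ⟨P, hPm, hP, hPp, hPS, ?_, (rcVal_of_mem π hPm).symm⟩
  rwa [rcVal_of_mem χ hPm] at hPχ

/-- The image algebra of the ring class group quotient is the whole group ring. -/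
theorem adjoin_ringClassPrimes_eq_top (hπ : Function.Surjective π) (hG : IsPGroup 2 G)
    (hχ3 : ∀ c, χ c ^ 3 = 1) (hχne : χ ≠ 1) (S : Finset ℕ) {O : Type*} [CommRing O]
    [IsLocalRing O] (h2 : (2 : O) ∈ IsLocalRing.maximalIdeal O) (u : RingClassGroup K f →* Oˣ)
    (hu : ∀ c, χ c ≠ 1 → IsLocalRing.residue O (u c : O) ^ 2 ≠ 1) :
    Algebra.adjoin O {x : MonoidAlgebra O G | ∃ (P : Ideal (𝓞 K)) (hP : P ∈ primeTo K f),
      P.IsPrime ∧ (Ideal.absNorm P).Prime ∧ Ideal.absNorm P ∉ S ∧ χ (cls ⟨P, hP⟩) ≠ 1 ∧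
      x = MonoidAlgebra.single (π (cls ⟨P, hP⟩)) (u (cls ⟨P, hP⟩) : O) +
        MonoidAlgebra.single (π (cls ⟨P, hP⟩))⁻¹ (((u (cls ⟨P, hP⟩))⁻¹ : Oˣ) : O)} = ⊤ := by
  obtain ⟨c, hc⟩ : ∃ c, χ c ≠ 1 := by
    by_contra! h
    exact hχne (MonoidHom.ext h)
  obtain ⟨⟨I, hI⟩, rfl⟩ := cls_surjective c
  rw [eq_top_iff, ← adjoin_primeValues_eq_top condIdeal_ne_bot hG (rcVal π) (rcVal_mul π)
    (rcVal_span_congr π) (rcVal_surjective π hπ) (rcVal χ) (rcVal_mul χ) (rcVal_span_congr χ)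
    (rcVal_pow_three χ hχ3) ⟨I, hI, by rwa [rcVal_of_mem χ hI]⟩ S h2 (rcVal u)
    (fun P hP hPm hPχ ↦ by
      rw [rcVal_of_mem χ hPm] at hPχ
      rw [rcVal_of_mem u hPm]
      exact hu _ hPχ)]
  refine Algebra.adjoin_mono ?_
  rintro _ ⟨P, hP, hPp, hPS, hPm, hPχ, rfl⟩
  rw [rcVal_of_mem χ hPm] at hPχ
  refine ⟨P, hPm, hP, hPp, hPS, hPχ, ?_⟩
  rw [rcVal_of_mem π hPm, rcVal_of_mem u hPm]

end Fermat.Agent.TwoAdic.PrimeClasses
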